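/-
S26lib / SheafGlue / Main  (helper4)  --  Project K (S26), brick (G1s)

The scheme glue `Hub.CDiv Z → RelCurve.RatioFam Γ(Z,W) K(Z)` for an affine open `W` of an integral
scheme `Z`: the localisation `Γ(Z,W)_𝔭 ⊆ K(Z)` is the local ring of the point `fromSpec 𝔭`, a
Cartier divisor restricts to a coherent family of local ratios on `Spec Γ(Z,W)`, and its modules of
sections over `W` and over basic opens are described pointwise on `Z`.
-/
import Fermat.Agent.S26lib.RelCurve.InvAlg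
import Fermat.Agent.S26lib.Hub.CaCl
import Fermat.Agent.S26lib.P5a.HartogsScheme

set_option autoImplicit false
set_option linter.unusedSectionVars false

universe u

open AlgebraicGeometry CategoryTheory TopologicalSpace

namespace Fermat.Agent.S26lib.SheafGlue

open Fermat.Agent.S26lib.Quad Fermat.Agent.S26lib.Hub Fermat.Agent.S26lib.RelCurve
  Fermat.Agent.S26lib.P5a

variable {Z : Scheme.{u}} [IsIntegral Z] {W : Z.Opens} (hW : IsAffineOpen W) [Nonempty W]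

include hW in
/-- the fraction field of the coordinate ring of a nonempty affine open is the function field -/
theorem isFractionRing : IsFractionRing Γ(Z, W) Z.functionField :=
  functionField_isFractionRing_of_isAffineOpen Z W hW

/-- `algebraMap Γ(Z,W) K(Z)` factors through the stalk at every point of `W` -/
theorem algebraMap_eq_toFF_germ (y : Z) (hy : y ∈ W) (a : Γ(Z, W)) :
    algebraMap Γ(Z, W) Z.functionField a = toFF Z y (Z.presheaf.germ W y hy a) := by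
  let _ := TopCat.Presheaf.algebra_section_stalk Z.presheaf ⟨y, hy⟩
  have htower : IsScalarTower Γ(Z, W) (Z.presheaf.stalk y) Z.functionField :=
    functionField_isScalarTower Z W ⟨y, hy⟩
  exact IsScalarTower.algebraMap_apply Γ(Z, W) (Z.presheaf.stalk y) Z.functionField a

variable [IsFractionRing Γ(Z, W) Z.functionField]

/-- (1) **`Γ(Z,W)_𝔭 = O_{Z, fromSpec 𝔭}` inside `K(Z)`** -/
theorem mem_locSub_iff_mem_range_toFF (𝔭 : PrimeSpectrum Γ(Z, W)) (x : Z.functionField) :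
    x ∈ locSub Z.functionField 𝔭.asIdeal ↔ x ∈ Set.range (toFF Z (hW.fromSpec 𝔭)) := by
  have hy : hW.fromSpec 𝔭 ∈ W := fromSpec_mem hW 𝔭
  let _ := TopCat.Presheaf.algebra_section_stalk Z.presheaf ⟨hW.fromSpec 𝔭, hy⟩
  have hloc : IsLocalization.AtPrime (Z.presheaf.stalk (hW.fromSpec 𝔭)) 𝔭.asIdeal :=
    hW.isLocalization_stalk' 𝔭 hy
  have halg : ∀ a : Γ(Z, W), algebraMap Γ(Z, W) Z.functionField a =
      toFF Z (hW.fromSpec 𝔭) (algebraMap Γ(Z, W) (Z.presheaf.stalk (hW.fromSpec 𝔭)) a) :=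
    fun a => algebraMap_eq_toFF_germ (hW.fromSpec 𝔭) hy a
  constructor
  · rintro ⟨a, s, hs, hx⟩
    have hu : IsUnit (algebraMap Γ(Z, W) (Z.presheaf.stalk (hW.fromSpec 𝔭)) s) :=
      IsLocalization.map_units (M := 𝔭.asIdeal.primeCompl) _ ⟨s, hs⟩
    obtain ⟨u, hu'⟩ := hu
    refine ⟨algebraMap Γ(Z, W) (Z.presheaf.stalk (hW.fromSpec 𝔭)) a * ((u⁻¹ : _ˣ) : _), ?_⟩
    have hs0 : toFF Z (hW.fromSpec 𝔭) (u : Z.presheaf.stalk (hW.fromSpec 𝔭)) ≠ 0 :=
      toFF_ne_zero Z u.ne_zero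
    have h1 : toFF Z (hW.fromSpec 𝔭) ((u⁻¹ : _ˣ) : Z.presheaf.stalk (hW.fromSpec 𝔭)) *
        toFF Z (hW.fromSpec 𝔭) (u : Z.presheaf.stalk (hW.fromSpec 𝔭)) = 1 := by
      rw [← map_mul, Units.inv_mul, map_one]
    rw [halg, halg, ← hu'] at hx
    rw [map_mul, ← hx, mul_assoc, mul_comm (toFF Z _ (u : Z.presheaf.stalk (hW.fromSpec 𝔭))), h1,
      mul_one]
  · rintro ⟨v, rfl⟩
    obtain ⟨⟨a, s⟩, hs⟩ := IsLocalization.surj 𝔭.asIdeal.primeCompl v
    refine ⟨a, s.1, s.2, ?_⟩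
    rw [halg, halg, ← map_mul]
    exact congrArg _ hs

omit [Nonempty W] [IsFractionRing Γ(Z, W) Z.functionField] in
/-- a point of the basic open `D(f)` of an affine open is `fromSpec` of a prime not containing
`f` -/
theorem fromSpec_mem_basicOpen_iff (f : Γ(Z, W)) (𝔮 : PrimeSpectrum Γ(Z, W)) :
    hW.fromSpec 𝔮 ∈ Z.basicOpen f ↔ f ∉ 𝔮.asIdeal := by
  have h := hW.fromSpec_preimage_basicOpen f
  have h1 : hW.fromSpec 𝔮 ∈ Z.basicOpen f ↔ 𝔮 ∈ hW.fromSpec ⁻¹ᵁ Z.basicOpen f := Iff.rfl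
  rw [h1, h]
  exact PrimeSpectrum.mem_basicOpen f 𝔮

omit [Nonempty W] [IsFractionRing Γ(Z, W) Z.functionField] in
/-- membership in `stalkUnits`, in ring terms -/
theorem mem_range_toFF_of_mem_stalkUnits {y : Z} {q : (Z.functionField)ˣ}
    (hq : q ∈ stalkUnits Z y) : (q : Z.functionField) ∈ Set.range (toFF Z y) := by
  obtain ⟨u, rfl⟩ := hq
  exact ⟨u, rfl⟩

/-- (2) **the family of local ratios of a Cartier divisor on an affine open** -/
noncomputable def ratioFam (𝔏 : CDiv Z) : RatioFam Γ(Z, W) Z.functionField where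
  r := fun 𝔭 => ((𝔏.t (hW.fromSpec 𝔭) : (Z.functionField)ˣ) : Z.functionField)
  r_ne := fun 𝔭 => Units.ne_zero _
  coh := by
    intro 𝔭
    have hx : hW.fromSpec 𝔭 ∈ W := fromSpec_mem hW 𝔭
    obtain ⟨U, hxU, hU⟩ := 𝔏.coherent (hW.fromSpec 𝔭)
    obtain ⟨f, hfU, hxf⟩ := hW.exists_basicOpen_le (V := U) ⟨hW.fromSpec 𝔭, hxU⟩ hx
    refine ⟨f, (fromSpec_mem_basicOpen_iff hW f 𝔭).mp hxf, fun 𝔮 h𝔮 => ?_⟩
    have hyU : hW.fromSpec 𝔮 ∈ U := hfU ((fromSpec_mem_basicOpen_iff hW f 𝔮).mpr h𝔮)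
    have h1 := hU _ hyU
    have h2 := inv_mem h1
    rw [inv_div] at h2
    refine ⟨?_, ?_⟩
    · rw [mem_locSub_iff_mem_range_toFF hW]
      have := mem_range_toFF_of_mem_stalkUnits h1
      rwa [Units.val_div_eq_div_val] at this
    · rw [mem_locSub_iff_mem_range_toFF hW]
      have := mem_range_toFF_of_mem_stalkUnits h2
      rwa [Units.val_div_eq_div_val] at this

@[simp] theorem ratioFam_r (𝔏 : CDiv Z) (𝔭 : PrimeSpectrum Γ(Z, W)) :
    (ratioFam hW 𝔏).r 𝔭 = ((𝔏.t (hW.fromSpec 𝔭) : (Z.functionField)ˣ) : Z.functionField) := rfl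

omit [Nonempty W] [IsFractionRing Γ(Z, W) Z.functionField] in
/-- transport of `range toFF` along an equality of points -/
theorem mem_range_toFF_congr {y y' : Z} (h : y = y') (x : Z.functionField) :
    x ∈ Set.range (toFF Z y) ↔ x ∈ Set.range (toFF Z y') := by
  subst h; rfl

/-- the pointwise condition at a point of `W`, in terms of its prime ideal -/
theorem mul_r_mem_locSub_iff (𝔏 : CDiv Z) (h : Z.functionField) (𝔮 : PrimeSpectrum Γ(Z, W)) :
    h * (ratioFam hW 𝔏).r 𝔮 ∈ locSub Z.functionField 𝔮.asIdeal ↔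
      h * ((𝔏.t (hW.fromSpec 𝔮) : (Z.functionField)ˣ) : Z.functionField) ∈
        Set.range (toFF Z (hW.fromSpec 𝔮)) := by
  rw [mem_locSub_iff_mem_range_toFF hW, ratioFam_r]

/-- (3) **global sections of the ratio family = rational functions `h` with `h·𝔏_y` regular at
every `y ∈ W`** -/
theorem mem_lam_univ_iff (𝔏 : CDiv Z) (h : Z.functionField) :
    h ∈ (ratioFam hW 𝔏).lam Set.univ ↔
      ∀ y ∈ W, h * ((𝔏.t y : (Z.functionField)ˣ) : Z.functionField) ∈ Set.range (toFF Z y) := by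
  rw [RatioFam.mem_lam_iff]
  constructor
  · intro hh y hy
    have h1 := (mul_r_mem_locSub_iff hW 𝔏 h (hW.primeIdealOf ⟨y, hy⟩)).mp
      (hh _ (Set.mem_univ _))
    have e : hW.fromSpec (hW.primeIdealOf ⟨y, hy⟩) = y := hW.fromSpec_primeIdealOf ⟨y, hy⟩
    rw [e] at h1
    exact h1
  · intro hh 𝔮 _
    exact (mul_r_mem_locSub_iff hW 𝔏 h 𝔮).mpr (hh _ (fromSpec_mem hW 𝔮))

/-- (4) **sections over a basic open** -/
theorem forall_not_mem_iff_basicOpen (𝔏 : CDiv Z) (f : Γ(Z, W)) (h : Z.functionField) :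
    (∀ 𝔮 : PrimeSpectrum Γ(Z, W), f ∉ 𝔮.asIdeal →
        h * (ratioFam hW 𝔏).r 𝔮 ∈ locSub Z.functionField 𝔮.asIdeal) ↔
      ∀ y ∈ Z.basicOpen f,
        h * ((𝔏.t y : (Z.functionField)ˣ) : Z.functionField) ∈ Set.range (toFF Z y) := by
  constructor
  · intro hh y hy
    have hyW : y ∈ W := Z.basicOpen_le f hy
    have e : hW.fromSpec (hW.primeIdealOf ⟨y, hyW⟩) = y := hW.fromSpec_primeIdealOf ⟨y, hyW⟩
    have hf : f ∉ (hW.primeIdealOf ⟨y, hyW⟩).asIdeal := by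
      rw [← fromSpec_mem_basicOpen_iff hW, e]
      exact hy
    have h1 := (mul_r_mem_locSub_iff hW 𝔏 h (hW.primeIdealOf ⟨y, hyW⟩)).mp (hh _ hf)
    rw [e] at h1
    exact h1
  · intro hh 𝔮 h𝔮
    exact (mul_r_mem_locSub_iff hW 𝔏 h 𝔮).mpr
      (hh _ ((fromSpec_mem_basicOpen_iff hW f 𝔮).mpr h𝔮))

/-- (5) the ratio family of the inverse divisor is the inverse family -/
theorem ratioFam_inv (𝔏 : CDiv Z) : ratioFam hW 𝔏⁻¹ = (ratioFam hW 𝔏).inv := by
  have hr : (ratioFam hW 𝔏⁻¹).r = (ratioFam hW 𝔏).inv.r := by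
    funext 𝔭
    rw [RatioFam.inv_r, ratioFam_r, ratioFam_r, CDiv.inv_t, Units.val_inv_eq_inv_val]
  cases h1 : ratioFam hW 𝔏⁻¹
  cases h2 : (ratioFam hW 𝔏).inv
  rw [h1, h2] at hr
  simp only at hr
  subst hr
  rfl

end Fermat.Agent.S26lib.SheafGlue
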