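/-
S26lib / SheafGlue / Fibre  (helper4)  --  Project K (S26), brick (G3s)

Restriction to a closed subscheme, scheme side.  `ι : C ⟶ X` a morphism of integral schemes,
`W ⊆ X`, `U ⊆ C` nonempty affine opens with `U ≤ ι⁻¹ W` and `ι^* : Γ(X,W) → Γ(C,U)` ONTO (e.g. the
inclusion of a closed fibre of a product, `ProdAff.fib_surjective`).  Then
* `fibData` : helper3's `RelCurve.FibData Γ(X,W) K(X) Γ(C,U) K(C)` with `π = ι^*`, `𝔞 = ker ι^*`
  (the prime of `η₀ = ι η_C`), `res = resFF ι` (= `pbFF ι` on `O_{X,η₀}`);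
* `fibre_ratioFam` : the fibre family of the ratio family of a Cartier divisor `𝔏` on `W` is the
  ratio family of helper7's pull-back `CDiv.pull ι 𝔏` on `U`.
-/
import Fermat.Agent.S26lib.SheafGlue.Main
import Fermat.Agent.S26lib.RelCurve.FibAlg

set_option autoImplicit false
set_option linter.unusedSectionVars false

universe u

open AlgebraicGeometry CategoryTheory TopologicalSpace

namespace Fermat.Agent.S26lib.SheafGlue

open Fermat.Agent.S26lib.Quad Fermat.Agent.S26lib.Hub Fermat.Agent.S26lib.RelCurve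
  Fermat.Agent.S26lib.P5a

variable {X C : Scheme.{u}} [IsIntegral X] [IsIntegral C] (ι : C ⟶ X)

/-- pull-back of the rational functions which are regular at `ι η_C` (junk elsewhere) -/
noncomputable def resFF (x : X.functionField) : C.functionField := by
  classical
  exact if h : x ∈ Set.range (toFF X (ι (genericPoint C))) then pbFF ι h.choose else 0

theorem resFF_toFF (e : X.presheaf.stalk (ι (genericPoint C))) :
    resFF ι (toFF X (ι (genericPoint C)) e) = pbFF ι e := by
  classical
  have h : toFF X (ι (genericPoint C)) e ∈ Set.range (toFF X (ι (genericPoint C))) := ⟨e, rfl⟩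
  unfold resFF
  rw [dif_pos h]
  exact congrArg _ (toFF_injective X _ h.choose_spec)

theorem resFF_add {x y : X.functionField} (hx : x ∈ Set.range (toFF X (ι (genericPoint C))))
    (hy : y ∈ Set.range (toFF X (ι (genericPoint C)))) :
    resFF ι (x + y) = resFF ι x + resFF ι y := by
  obtain ⟨a, rfl⟩ := hx
  obtain ⟨b, rfl⟩ := hy
  rw [← map_add, resFF_toFF, resFF_toFF, resFF_toFF, map_add]

theorem resFF_mul {x y : X.functionField} (hx : x ∈ Set.range (toFF X (ι (genericPoint C))))
    (hy : y ∈ Set.range (toFF X (ι (genericPoint C)))) :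
    resFF ι (x * y) = resFF ι x * resFF ι y := by
  obtain ⟨a, rfl⟩ := hx
  obtain ⟨b, rfl⟩ := hy
  rw [← map_mul, resFF_toFF, resFF_toFF, resFF_toFF, map_mul]

/-- on units of `O_{X, ι η_C}` the residue map is helper7's `pbU` -/
theorem resFF_stalkUnits (q : stalkUnits X (ι (genericPoint C))) :
    resFF ι ((q : (X.functionField)ˣ) : X.functionField) =
      ((pbU ι q : (C.functionField)ˣ) : C.functionField) := by
  obtain ⟨q, u, rfl⟩ := q
  rw [pbU_toFFU]
  exact resFF_toFF ι (u : X.presheaf.stalk (ι (genericPoint C)))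

/-! ### the fibre datum of a surjection `ι^* : Γ(X,W) → Γ(C,U)` -/

section Fib

variable {W : X.Opens} {U : C.Opens} (hW : IsAffineOpen W) (hU : IsAffineOpen U)
  [Nonempty W] [Nonempty U] (e : U ≤ ι ⁻¹ᵁ W)

theorem genericPoint_mem (U : C.Opens) [h : Nonempty U] : genericPoint C ∈ U :=
  ((genericPoint_spec C).mem_open_set_iff U.isOpen).mpr (by simpa using h)

include hU in
/-- the prime ideal of the generic point is zero -/
theorem primeIdealOf_genericPoint_asIdeal :
    (hU.primeIdealOf ⟨genericPoint C, genericPoint_mem U⟩).asIdeal = ⊥ := by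
  have h1 := hU.primeIdealOf_genericPoint
  have h2 := genericPoint_eq_bot_of_affine Γ(C, U)
  have h3 : hU.primeIdealOf ⟨genericPoint C, genericPoint_mem U⟩ =
      (⊥ : PrimeSpectrum Γ(C, U)) := h1.trans h2
  rw [h3]
  rfl

/-- naturality of `fromSpec` on points -/
theorem fromSpec_comap (𝔮 : PrimeSpectrum Γ(C, U)) :
    hW.fromSpec (PrimeSpectrum.comap (ι.appLE W U e).hom 𝔮) = ι (hU.fromSpec 𝔮) := by
  have h := IsAffineOpen.SpecMap_appLE_fromSpec ι hW hU e
  exact congrArg (fun φ : Spec Γ(C, U) ⟶ X => φ 𝔮) h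

include hU in
/-- the kernel of `ι^*` is the prime ideal of the point `ι η_C` -/
theorem ker_appLE_eq :
    RingHom.ker (ι.appLE W U e).hom =
      (hW.primeIdealOf ⟨ι (genericPoint C), e (genericPoint_mem U)⟩).asIdeal := by
  have h1 := IsAffineOpen.comap_primeIdealOf_appLE (f := ι) (x := genericPoint C) W hW U hU e
    (genericPoint_mem U)
  rw [← h1, PrimeSpectrum.comap_asIdeal, primeIdealOf_genericPoint_asIdeal hU]
  rfl

/-- the prime of the fibre -/
noncomputable def fibPrime : PrimeSpectrum Γ(X, W) :=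
  ⟨RingHom.ker (ι.appLE W U e).hom, RingHom.ker_isPrime _⟩

include hU in
theorem fromSpec_fibPrime : hW.fromSpec (fibPrime ι e) = ι (genericPoint C) := by
  have h : fibPrime ι e = hW.primeIdealOf ⟨ι (genericPoint C), e (genericPoint_mem U)⟩ :=
    PrimeSpectrum.ext (ker_appLE_eq ι hW hU e)
  rw [h, hW.fromSpec_primeIdealOf]

variable [IsFractionRing Γ(X, W) X.functionField] [IsFractionRing Γ(C, U) C.functionField]

include hW hU in
theorem mem_range_of_mem_locSub_fibPrime {x : X.functionField}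
    (hx : x ∈ locSub X.functionField (fibPrime ι e).asIdeal) :
    x ∈ Set.range (toFF X (ι (genericPoint C))) := by
  have h := (mem_locSub_iff_mem_range_toFF hW (fibPrime ι e) x).mp hx
  exact (mem_range_toFF_congr (fromSpec_fibPrime ι hW hU e) x).mp h

/-- `res ∘ algebraMap = algebraMap ∘ ι^*` -/
theorem resFF_algebraMap (b : Γ(X, W)) :
    resFF ι (algebraMap Γ(X, W) X.functionField b) =
      algebraMap Γ(C, U) C.functionField ((ι.appLE W U e).hom b) := by
  have hη : genericPoint C ∈ U := genericPoint_mem U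
  rw [algebraMap_eq_toFF_germ (ι (genericPoint C)) (e hη) b, resFF_toFF]
  have h0 : pbFF ι (X.presheaf.germ W (ι (genericPoint C)) (e hη) b) =
      C.presheaf.germ (ι ⁻¹ᵁ W) (genericPoint C) (e hη) (ι.app W b) :=
    Scheme.Hom.germ_stalkMap_apply ι W (genericPoint C) (e hη) b
  rw [h0, algebraMap_eq_toFF_germ (genericPoint C) hη, toFF_generic]
  have h1 : C.presheaf.germ U (genericPoint C) hη
        ((C.presheaf.map (homOfLE e).op).hom (ι.app W b)) =
      C.presheaf.germ (ι ⁻¹ᵁ W) (genericPoint C) (e hη) (ι.app W b) :=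
    TopCat.Presheaf.germ_res_apply _ _ _ _ _
  rw [← h1]
  rfl

/-- **the fibre datum** of a surjection `ι^* : Γ(X,W) → Γ(C,U)` -/
noncomputable def fibData (hsurj : Function.Surjective (ι.appLE W U e).hom) :
    FibData Γ(X, W) X.functionField Γ(C, U) C.functionField where
  𝔞 := fibPrime ι e
  π := (ι.appLE W U e).hom
  π_surj := hsurj
  ker_π := rfl
  res := resFF ι
  res_add := fun _ hx _ hy =>
    resFF_add ι (mem_range_of_mem_locSub_fibPrime ι hW hU e hx)
      (mem_range_of_mem_locSub_fibPrime ι hW hU e hy)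
  res_mul := fun _ hx _ hy =>
    resFF_mul ι (mem_range_of_mem_locSub_fibPrime ι hW hU e hx)
      (mem_range_of_mem_locSub_fibPrime ι hW hU e hy)
  res_algebraMap := resFF_algebraMap ι e

variable (hsurj : Function.Surjective (ι.appLE W U e).hom)

@[simp] theorem fibData_π : (fibData ι hW hU e hsurj).π = (ι.appLE W U e).hom := rfl

@[simp] theorem fibData_res : (fibData ι hW hU e hsurj).res = resFF ι := rfl

@[simp] theorem fibData_𝔞 : (fibData ι hW hU e hsurj).𝔞 = fibPrime ι e := rfl

theorem fibData_𝔞_asIdeal :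
    (fibData ι hW hU e hsurj).𝔞.asIdeal = RingHom.ker (ι.appLE W U e).hom := rfl

/-- the point of the prime of the fibre is `η₀ = ι η_C` -/
theorem fromSpec_fibData_𝔞 :
    hW.fromSpec (fibData ι hW hU e hsurj).𝔞 = ι (genericPoint C) :=
  fromSpec_fibPrime ι hW hU e

/-- the point of `up 𝔮` is `ι (fromSpec 𝔮)` -/
theorem fromSpec_fibData_up (𝔮 : PrimeSpectrum Γ(C, U)) :
    hW.fromSpec ((fibData ι hW hU e hsurj).up 𝔮) = ι (hU.fromSpec 𝔮) :=
  fromSpec_comap ι hW hU e 𝔮

/-- **the fibre family of a Cartier divisor is its pull-back** (helper7's `CDiv.pull`) -/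
theorem fibre_ratioFam_r (𝔏 : CDiv X) (𝔮 : PrimeSpectrum Γ(C, U)) :
    ((fibData ι hW hU e hsurj).fibre (ratioFam hW 𝔏)).r 𝔮 =
      (ratioFam hU (CDiv.pull ι 𝔏)).r 𝔮 := by
  rw [FibData.fibre_r, ratioFam_r, ratioFam_r, ratioFam_r, fromSpec_fibData_up,
    fromSpec_fibData_𝔞, CDiv.pull_t, fibData_res, ← Units.val_div_eq_div_val]
  exact resFF_stalkUnits ι (CDiv.quot ι 𝔏 (hU.fromSpec 𝔮))

theorem fibre_ratioFam (𝔏 : CDiv X) :
    (fibData ι hW hU e hsurj).fibre (ratioFam hW 𝔏) = ratioFam hU (CDiv.pull ι 𝔏) := by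
  have hr : ((fibData ι hW hU e hsurj).fibre (ratioFam hW 𝔏)).r =
      (ratioFam hU (CDiv.pull ι 𝔏)).r := funext (fibre_ratioFam_r ι hW hU e hsurj 𝔏)
  cases h1 : (fibData ι hW hU e hsurj).fibre (ratioFam hW 𝔏)
  cases h2 : ratioFam hU (CDiv.pull ι 𝔏)
  rw [h1, h2] at hr
  simp only at hr
  subst hr
  rfl

/-- the reduction map, in scheme terms: `ρ h = res_ι (h · 𝔏_{η₀})` -/
theorem rho_eq (𝔏 : CDiv X) (h : X.functionField) :
    (fibData ι hW hU e hsurj).rho (ratioFam hW 𝔏) h =
      resFF ι (h * ((𝔏.t (ι (genericPoint C)) : (X.functionField)ˣ) : X.functionField)) := by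
  unfold FibData.rho
  rw [ratioFam_r, fromSpec_fibData_𝔞, fibData_res]

end Fib

end Fermat.Agent.S26lib.SheafGlue
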