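/-
S26lib / SheafGlue / LocPt  (helper4)  --  Project K (S26), brick (Loc-s)

Localisation at a point of the base, pointwise form.  `π : X ⟶ T`, `W ⊆ X` and `T' ⊆ T` affine
opens with `W ≤ π⁻¹ T'`, `t ∈ T'`, `𝔏` a Cartier divisor on `X`.  A rational function `h` satisfies
"`h · 𝔏_y` is regular at every `y ∈ W` with `π y ⤳ t`" (sections over `W ×_T Spec O_{T,t}`) iff
`π^* s · h` is a section over `W` for some `s ∈ Γ(T,T')` with `s(t) ≠ 0`.
-/
import Fermat.Agent.S26lib.SheafGlue.Main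

set_option autoImplicit false
set_option linter.unusedSectionVars false

universe u

open AlgebraicGeometry CategoryTheory TopologicalSpace

namespace Fermat.Agent.S26lib.SheafGlue

open Fermat.Agent.S26lib.Quad Fermat.Agent.S26lib.Hub Fermat.Agent.S26lib.RelCurve
  Fermat.Agent.S26lib.P5a

/-- **algebraic core**: a rational function which is a section of the ratio family at all primes
disjoint from a multiplicative set `S` becomes a global section after multiplication by an element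
of `S` -/
theorem exists_mem_mul_mem_lam {B : Type*} [CommRing B] [IsDomain B] {𝒦 : Type*} [Field 𝒦]
    [Algebra B 𝒦] [IsFractionRing B 𝒦] (R : RatioFam B 𝒦) (S : Submonoid B) (h : 𝒦)
    (hh : ∀ 𝔮 : PrimeSpectrum B, Disjoint (𝔮.asIdeal : Set B) (S : Set B) →
      h * R.r 𝔮 ∈ locSub 𝒦 𝔮.asIdeal) :
    ∃ s ∈ S, algebraMap B 𝒦 s * h ∈ R.lam Set.univ := by
  classical
  let I : Ideal B :=
    { carrier := {b | algebraMap B 𝒦 b * h ∈ R.lam Set.univ}
      add_mem' := by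
        intro a b ha hb
        show algebraMap B 𝒦 (a + b) * h ∈ R.lam Set.univ
        rw [map_add, add_mul]
        exact Submodule.add_mem _ ha hb
      zero_mem' := by
        show algebraMap B 𝒦 0 * h ∈ R.lam Set.univ
        rw [map_zero, zero_mul]
        exact Submodule.zero_mem _
      smul_mem' := by
        intro c b hb
        show algebraMap B 𝒦 (c • b) * h ∈ R.lam Set.univ
        rw [smul_eq_mul, map_mul, mul_assoc, ← Algebra.smul_def]
        exact Submodule.smul_mem _ c hb }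
  by_contra hcon
  have hdisj : Disjoint (I : Set B) (S : Set B) := by
    rw [Set.disjoint_left]
    intro b hb hbS
    exact hcon ⟨b, hbS, hb⟩
  obtain ⟨𝔮, h𝔮, hI𝔮, h𝔮S⟩ := Ideal.exists_le_prime_disjoint I S hdisj
  let 𝔮' : PrimeSpectrum B := ⟨𝔮, h𝔮⟩
  obtain ⟨a, s₀, hs₀, hx⟩ := hh 𝔮' h𝔮S
  obtain ⟨f, hf, hcoh⟩ := R.coh 𝔮'
  have hs₀ne : algebraMap B 𝒦 s₀ ≠ 0 := by
    intro h0
    have : s₀ = 0 := (IsFractionRing.injective B 𝒦) (by rw [h0, map_zero])
    exact hs₀ (this ▸ 𝔮.zero_mem)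
  obtain ⟨M, hM⟩ := R.exists_pow_mul_mem (f * s₀) (h := h) (fun 𝔭 h𝔭 => by
    have hf𝔭 : f ∉ 𝔭.asIdeal := fun hmem => h𝔭 (𝔭.asIdeal.mul_mem_right _ hmem)
    have hs𝔭 : s₀ ∉ 𝔭.asIdeal := fun hmem => h𝔭 (𝔭.asIdeal.mul_mem_left _ hmem)
    have h1 := (hcoh 𝔭 hf𝔭).1
    have e : h * R.r 𝔭 =
        algebraMap B 𝒦 a * (algebraMap B 𝒦 s₀)⁻¹ * (R.r 𝔭 / R.r 𝔮') := by
      rw [← hx]
      field_simp [R.r_ne 𝔮']
    rw [e]
    exact Subring.mul_mem _ (Subring.mul_mem _ (algebraMap_mem_locSub _ _)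
      (inv_algebraMap_mem_locSub hs𝔭)) h1)
  have hmem : (f * s₀) ^ M ∈ I := by
    show algebraMap B 𝒦 ((f * s₀) ^ M) * h ∈ R.lam Set.univ
    rw [map_pow]
    exact hM
  have : f * s₀ ∈ 𝔮 := h𝔮.mem_of_pow_mem _ (hI𝔮 hmem)
  exact (h𝔮.mem_or_mem this).elim hf hs₀

/-! ### scheme form -/

section General

variable {X T : Scheme.{u}}

/-- naturality of `fromSpec` on points (no integrality) -/
theorem fromSpec_comap' (π : X ⟶ T) {W : X.Opens} (hW : IsAffineOpen W) {T' : T.Opens}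
    (hT' : IsAffineOpen T') (e : W ≤ π ⁻¹ᵁ T') (𝔮 : PrimeSpectrum Γ(X, W)) :
    hT'.fromSpec (PrimeSpectrum.comap (π.appLE T' W e).hom 𝔮) = π (hW.fromSpec 𝔮) := by
  have h := IsAffineOpen.SpecMap_appLE_fromSpec π hT' hW e
  exact congrArg (fun φ : Spec Γ(X, W) ⟶ T => φ 𝔮) h

/-- a point of an affine open lies in `D(s)` iff `s` is not in its prime ideal -/
theorem mem_basicOpen_iff_not_mem_primeIdealOf {T' : T.Opens} (hT' : IsAffineOpen T') (t : T)
    (ht : t ∈ T') (s : Γ(T, T')) :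
    t ∈ T.basicOpen s ↔ s ∉ (hT'.primeIdealOf ⟨t, ht⟩).asIdeal := by
  have h := hT'.fromSpec_preimage_basicOpen s
  have h1 : hT'.fromSpec (hT'.primeIdealOf ⟨t, ht⟩) ∈ T.basicOpen s ↔
      hT'.primeIdealOf ⟨t, ht⟩ ∈ hT'.fromSpec ⁻¹ᵁ T.basicOpen s := Iff.rfl
  rw [hT'.fromSpec_primeIdealOf ⟨t, ht⟩] at h1
  rw [h1, h]
  exact PrimeSpectrum.mem_basicOpen s _

/-- the pull-back of a function which does not vanish at `π y` is a unit at `y` -/
theorem isUnit_germ_appLE (π : X ⟶ T) {W : X.Opens} {T' : T.Opens} (e : W ≤ π ⁻¹ᵁ T')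
    (s : Γ(T, T')) (y : X) (hy : y ∈ W) (hs : π y ∈ T.basicOpen s) :
    IsUnit (X.presheaf.germ W y hy ((π.appLE T' W e).hom s)) := by
  rw [← Scheme.mem_basicOpen]
  have h1 : (π.appLE T' W e).hom s =
      (X.presheaf.map (homOfLE e).op).hom ((π.app T').hom s) := rfl
  rw [h1, Scheme.basicOpen_res, ← Scheme.preimage_basicOpen]
  exact ⟨hy, hs⟩

end General

section LocPt

variable {X T : Scheme.{u}} [IsIntegral X] (π : X ⟶ T) {W : X.Opens} (hW : IsAffineOpen W)
  [Nonempty W] [IsFractionRing Γ(X, W) X.functionField] {T' : T.Opens} (hT' : IsAffineOpen T')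
  (e : W ≤ π ⁻¹ᵁ T') (t : T) (ht : t ∈ T')

/-- **sections over `W ×_T Spec O_{T,t}`**: the pointwise condition over the generisations of `t`
is the condition "after multiplication by some `π^* s`, `s(t) ≠ 0`, a section over `W`" -/
theorem forall_specializes_iff_exists_mul_mem_lam (𝔏 : CDiv X) (h : X.functionField) :
    (∀ y ∈ W, π y ⤳ t →
        h * ((𝔏.t y : (X.functionField)ˣ) : X.functionField) ∈ Set.range (toFF X y)) ↔
      ∃ s : Γ(T, T'), s ∉ (hT'.primeIdealOf ⟨t, ht⟩).asIdeal ∧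
        algebraMap Γ(X, W) X.functionField ((π.appLE T' W e).hom s) * h ∈
          (ratioFam hW 𝔏).lam Set.univ := by
  constructor
  · intro hh
    obtain ⟨b, ⟨s, hs, rfl⟩, hb⟩ := exists_mem_mul_mem_lam (ratioFam hW 𝔏)
      (Submonoid.map (π.appLE T' W e).hom (hT'.primeIdealOf ⟨t, ht⟩).asIdeal.primeCompl) h
      (fun 𝔮 h𝔮 => by
        rw [mul_r_mem_locSub_iff]
        refine hh _ (fromSpec_mem hW 𝔮) ?_
        rw [← fromSpec_comap' π hW hT' e 𝔮]
        have hle : PrimeSpectrum.comap (π.appLE T' W e).hom 𝔮 ≤ hT'.primeIdealOf ⟨t, ht⟩ := by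
          intro a ha
          by_contra hat
          exact (Set.disjoint_left.mp h𝔮) ha ⟨a, hat, rfl⟩
        have hsp := ((PrimeSpectrum.le_iff_specializes _ _).mp hle).map
          hT'.fromSpec.continuous
        have e2 : hT'.fromSpec (hT'.primeIdealOf ⟨t, ht⟩) = t :=
          hT'.fromSpec_primeIdealOf ⟨t, ht⟩
        rw [← e2]
        exact hsp)
    exact ⟨s, hs, hb⟩
  · rintro ⟨s, hs, hmem⟩ y hy hyt
    have h1 := (mem_lam_univ_iff hW 𝔏 _).mp hmem y hy
    have hts : t ∈ T.basicOpen s := (mem_basicOpen_iff_not_mem_primeIdealOf hT' t ht s).mpr hs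
    have hπy : π y ∈ T.basicOpen s := hyt.mem_open (T.basicOpen s).isOpen hts
    obtain ⟨u, hu⟩ := isUnit_germ_appLE π e s y hy hπy
    rw [algebraMap_eq_toFF_germ y hy, ← hu] at h1
    obtain ⟨v, hv⟩ := h1
    refine ⟨((u⁻¹ : _ˣ) : X.presheaf.stalk y) * v, ?_⟩
    rw [map_mul, hv]
    have h2 : toFF X y ((u⁻¹ : _ˣ) : X.presheaf.stalk y) * toFF X y (u : X.presheaf.stalk y) =
        1 := by rw [← map_mul, Units.inv_mul, map_one]
    calc toFF X y ((u⁻¹ : _ˣ) : X.presheaf.stalk y) *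
          (toFF X y (u : X.presheaf.stalk y) * h * ((𝔏.t y : (X.functionField)ˣ) : _))
        = (toFF X y ((u⁻¹ : _ˣ) : X.presheaf.stalk y) * toFF X y (u : X.presheaf.stalk y)) *
          (h * ((𝔏.t y : (X.functionField)ˣ) : _)) := by ring
      _ = h * ((𝔏.t y : (X.functionField)ˣ) : _) := by rw [h2, one_mul]

end LocPt

end Fermat.Agent.S26lib.SheafGlue
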