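/-
S26lib / SheafGlue / ProdChart  (helper4)  --  Project K (S26), brick (G): the adapter

One chart `W = U × T'` of `X = C ×_K T` over the local ring of a rational point `t₀` of `T`, as an
instance of helper3's `RelCurve/LocBase` set-up:  `𝒪' = Γ(T,T')`, `𝔪'` = the prime of `t₀`,
`𝒪 = O_{T,t₀}`, `B = Γ(X,W)`, `𝒦 = K(X)`, `Rb = Γ(C,U)`, `Fc = K(C)`, `R = ratioFam 𝔏`,
`F = fibData (fibre inclusion)`.  All algebra structures are reducible defs (use with `letI`), the
hypotheses of `LocBase` (`h𝔞`, `hfin`, flatness, scalar towers, localisation) are theorems, and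
`lamO` is described pointwise on `X`.
-/
import Fermat.Agent.S26lib.SheafGlue.Fibre
import Fermat.Agent.S26lib.SheafGlue.LocPt
import Fermat.Agent.S26lib.ProdAff.Finite
import Fermat.Agent.S26lib.RelCurve.LocBase
import Fermat.Agent.S26lib.FinMap.FFMap

set_option autoImplicit false
set_option linter.unusedSectionVars false
set_option linter.style.haveILetI false

universe u

open AlgebraicGeometry CategoryTheory CategoryTheory.Limits TopologicalSpace

namespace Fermat.Agent.S26lib.SheafGlue

open Fermat.Agent.S26lib.Quad Fermat.Agent.S26lib.Hub Fermat.Agent.S26lib.RelCurve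
  Fermat.Agent.S26lib.P5a Fermat.Agent.S26lib.ProdAff

variable {K : Type u} [Field K] {C T : Scheme.{u}}
  (sC : C ⟶ Spec (CommRingCat.of K)) (sT : T ⟶ Spec (CommRingCat.of K))

section Alg

variable (U : C.Opens) (T' : T.Opens)

/-- `π₁^* : Γ(C,U) → Γ(X, U × T')` -/
noncomputable abbrev pr₁ : Γ(C, U) →+* Γ(pullback sC sT, box sC sT U T') :=
  ((pullback.fst sC sT).appLE U (box sC sT U T') (box_le_fst sC sT U T')).hom

/-- `π₂^* : Γ(T,T') → Γ(X, U × T')` -/
noncomputable abbrev pr₂ : Γ(T, T') →+* Γ(pullback sC sT, box sC sT U T') :=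
  ((pullback.snd sC sT).appLE T' (box sC sT U T') (box_le_snd sC sT U T')).hom

/-- the `Γ(T,T')`-algebra structure of `Γ(X, U × T')` -/
@[reducible] noncomputable def algBox : Algebra Γ(T, T') Γ(pullback sC sT, box sC sT U T') :=
  (pr₂ sC sT U T').toAlgebra

theorem algebraMap_algBox :
    letI := algBox sC sT U T'
    algebraMap Γ(T, T') Γ(pullback sC sT, box sC sT U T') = pr₂ sC sT U T' := rfl

/-- flatness, in module form -/
theorem flat_algBox {U : C.Opens} {T' : T.Opens} (hU : IsAffineOpen U) (hT' : IsAffineOpen T') :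
    letI := algBox sC sT U T'
    Module.Flat Γ(T, T') Γ(pullback sC sT, box sC sT U T') :=
  flat_appLE_snd sC sT hU hT'

/-- finiteness, in the form of `LocBase.exists_finset_lamO_le` -/
theorem finite_algBox {U : C.Opens} {T' : T.Opens} (hU : IsAffineOpen U) (hT' : IsAffineOpen T')
    (x₁ : Γ(C, U)) (hfin : (Polynomial.eval₂RingHom (constHomOpen sC U).hom x₁).Finite) :
    letI := algBox sC sT U T'
    (Polynomial.eval₂RingHom (algebraMap Γ(T, T') Γ(pullback sC sT, box sC sT U T'))
      (pr₁ sC sT U T' x₁)).Finite :=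
  finite_box sC sT hU hT' x₁ hfin

end Alg

section FF

variable [IsIntegral (pullback sC sT)] (U : C.Opens) (T' : T.Opens)
  [Nonempty (box sC sT U T')]

/-- the `Γ(T,T')`-algebra structure of `K(X)` -/
@[reducible] noncomputable def algBoxFF : Algebra Γ(T, T') (pullback sC sT).functionField :=
  ((algebraMap Γ(pullback sC sT, box sC sT U T') (pullback sC sT).functionField).comp
    (pr₂ sC sT U T')).toAlgebra

theorem isScalarTower_box :
    letI := algBox sC sT U T'
    letI := algBoxFF sC sT U T'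
    IsScalarTower Γ(T, T') Γ(pullback sC sT, box sC sT U T') (pullback sC sT).functionField := by
  letI := algBox sC sT U T'
  letI := algBoxFF sC sT U T'
  exact IsScalarTower.of_algebraMap_eq (fun _ => rfl)

variable [IsIntegral T] [IsDominant (pullback.snd sC sT)]

/-- the `O_{T,t}`-algebra structure of `K(X)` (through `K(T)`) -/
@[reducible] noncomputable def algStalkFF (t : T) :
    Algebra (T.presheaf.stalk t) (pullback sC sT).functionField :=
  ((FinMap.ffMap (pullback.snd sC sT)).comp (toFF T t)).toAlgebra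

theorem algebraMap_algStalkFF (t : T) (a : T.presheaf.stalk t) :
    letI := algStalkFF sC sT t
    algebraMap (T.presheaf.stalk t) (pullback sC sT).functionField a =
      FinMap.ffMap (pullback.snd sC sT) (toFF T t a) := rfl

/-- `Γ(T,T') → O_{T,t} → K(X)` is `Γ(T,T') → Γ(X,W) → K(X)` -/
theorem isScalarTower_stalk (t : T) (ht : t ∈ T') :
    letI := algBoxFF sC sT U T'
    letI := algStalkFF sC sT t
    letI := TopCat.Presheaf.algebra_section_stalk T.presheaf ⟨t, ht⟩
    IsScalarTower Γ(T, T') (T.presheaf.stalk t) (pullback sC sT).functionField := by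
  letI := algBoxFF sC sT U T'
  letI := algStalkFF sC sT t
  letI := TopCat.Presheaf.algebra_section_stalk T.presheaf ⟨t, ht⟩
  refine IsScalarTower.of_algebraMap_eq (fun s => ?_)
  haveI : Nonempty T' := ⟨⟨t, ht⟩⟩
  obtain ⟨⟨z, hz⟩⟩ := (inferInstance : Nonempty (box sC sT U T'))
  haveI : Nonempty ((pullback.snd sC sT) ⁻¹ᵁ T') := ⟨⟨z, box_le_snd sC sT U T' hz⟩⟩
  have hηT : genericPoint T ∈ T' := genericPoint_mem T'
  show algebraMap Γ(pullback sC sT, box sC sT U T') (pullback sC sT).functionField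
      (pr₂ sC sT U T' s) =
    FinMap.ffMap (pullback.snd sC sT) (toFF T t (T.presheaf.germ T' t ht s))
  have h1 : toFF T t (T.presheaf.germ T' t ht s) = T.germToFunctionField T' s := by
    have := algebraMap_eq_toFF_germ (Z := T) (W := T') t ht s
    exact this.symm
  rw [h1, FinMap.ffMap_germ]
  have hηX : genericPoint ↥(pullback sC sT) ∈ box sC sT U T' := genericPoint_mem _
  have h2 := TopCat.Presheaf.germ_res_apply (pullback sC sT).presheaf
    (homOfLE (box_le_snd sC sT U T')) (genericPoint ↥(pullback sC sT)) hηX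
    ((pullback.snd sC sT).app T' s)
  exact h2

end FF

section Fib

variable [IsIntegral C] [IsIntegral (pullback sC sT)]
  {t₀ : Spec (CommRingCat.of K) ⟶ T} (ht₀ : t₀ ≫ sT = 𝟙 _)
  {ι : C ⟶ pullback sC sT} (hι₁ : ι ≫ pullback.fst sC sT = 𝟙 C)
  (hι₂ : ι ≫ pullback.snd sC sT = sC ≫ t₀)
  {U : C.Opens} {T' : T.Opens} (hU : IsAffineOpen U) (hT' : IsAffineOpen T') [Nonempty U]
  (h : t₀ (IsLocalRing.closedPoint K) ∈ T')

include hι₁ hι₂ h in
/-- a box over a nonempty open of `C` and a neighbourhood of `t₀` is nonempty -/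
theorem nonempty_box : Nonempty (box sC sT U T') := by
  obtain ⟨⟨c, hc⟩⟩ := (inferInstance : Nonempty U)
  exact ⟨⟨ι c, le_preimage_box hι₁ hι₂ U h hc⟩⟩

variable [Nonempty (box sC sT U T')]
  [IsFractionRing Γ(pullback sC sT, box sC sT U T') (pullback sC sT).functionField]
  [IsFractionRing Γ(C, U) C.functionField]

/-- **the fibre datum of the chart `U × T'` over `t₀`** -/
noncomputable def fibDataBox :
    FibData Γ(pullback sC sT, box sC sT U T') (pullback sC sT).functionField Γ(C, U)
      C.functionField :=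
  fibData ι (isAffineOpen_box' sC sT hU hT') hU (le_preimage_box hι₁ hι₂ U h)
    (fib_surjective hι₁ hι₂ U h)

include ht₀ in
/-- `h𝔞` of `LocBase`: the prime of the closed fibre is generated by the maximal ideal of `t₀` -/
theorem fibDataBox_𝔞 :
    letI := algBox sC sT U T'
    (fibDataBox sC sT hι₁ hι₂ hU hT' h).𝔞.asIdeal =
      Ideal.map (algebraMap Γ(T, T') Γ(pullback sC sT, box sC sT U T'))
        (hT'.primeIdealOf ⟨t₀ (IsLocalRing.closedPoint K), h⟩).asIdeal := by
  letI := algBox sC sT U T'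
  show RingHom.ker (ι.appLE (box sC sT U T') U (le_preimage_box hι₁ hι₂ U h)).hom = _
  rw [ker_fib ht₀ hι₁ hι₂ U h hU hT', ker_evOpen t₀ hT' h]
  rfl

include ht₀ in
/-- the prime of a rational point is maximal -/
theorem isMaximal_primeIdealOf :
    (hT'.primeIdealOf ⟨t₀ (IsLocalRing.closedPoint K), h⟩).asIdeal.IsMaximal := by
  rw [← ker_evOpen t₀ hT' h]
  refine RingHom.ker_isMaximal_of_surjective _ ?_
  intro c
  refine ⟨(constHomOpen sT T').hom c, ?_⟩
  exact congrArg (fun φ : CommRingCat.of K ⟶ CommRingCat.of K => φ.hom c)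
    (constHomOpen_evOpen t₀ ht₀ T' h)

end Fib

section Over

variable [IsIntegral (pullback sC sT)] {U : C.Opens} {T' : T.Opens} (hU : IsAffineOpen U)
  (hT' : IsAffineOpen T') [Nonempty (box sC sT U T')]
  [IsFractionRing Γ(pullback sC sT, box sC sT U T') (pullback sC sT).functionField]
  (t : T) (ht : t ∈ T')

/-- the primes of the chart over `Spec O_{T,t}` are the points whose image generises `t` -/
theorem mem_overBase_iff_specializes
    (𝔮 : PrimeSpectrum Γ(pullback sC sT, box sC sT U T')) :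
    letI := algBox sC sT U T'
    𝔮 ∈ overBase (hT'.primeIdealOf ⟨t, ht⟩).asIdeal Γ(pullback sC sT, box sC sT U T') ↔
      pullback.snd sC sT ((isAffineOpen_box' sC sT hU hT').fromSpec 𝔮) ⤳ t := by
  letI := algBox sC sT U T'
  have e1 := fromSpec_comap' (pullback.snd sC sT) (isAffineOpen_box' sC sT hU hT') hT'
    (box_le_snd sC sT U T') 𝔮
  have e2 : hT'.fromSpec (hT'.primeIdealOf ⟨t, ht⟩) = t := hT'.fromSpec_primeIdealOf ⟨t, ht⟩
  have e3 : (pullback.snd sC sT ((isAffineOpen_box' sC sT hU hT').fromSpec 𝔮) ⤳ t) ↔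
      (hT'.fromSpec (PrimeSpectrum.comap (pr₂ sC sT U T') 𝔮) ⤳
        hT'.fromSpec (hT'.primeIdealOf ⟨t, ht⟩)) := by
    rw [e2]
    exact Iff.of_eq (congrArg (· ⤳ t) e1.symm)
  rw [e3]
  have e4 : (hT'.fromSpec (PrimeSpectrum.comap (pr₂ sC sT U T') 𝔮) ⤳
        hT'.fromSpec (hT'.primeIdealOf ⟨t, ht⟩)) ↔
      (PrimeSpectrum.comap (pr₂ sC sT U T') 𝔮 ⤳ hT'.primeIdealOf ⟨t, ht⟩) :=
    hT'.fromSpec.isOpenEmbedding.isInducing.specializes_iff
  rw [e4]
  exact (PrimeSpectrum.le_iff_specializes (PrimeSpectrum.comap (pr₂ sC sT U T') 𝔮)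
    (hT'.primeIdealOf ⟨t, ht⟩))

/-- **`lamO` pointwise**: the sections over `(U × T') ×_T Spec O_{T,t}` are the rational functions
`h` with `h · 𝔏_y` regular at every `y ∈ U × T'` whose image generises `t` -/
theorem mem_lam_overBase_iff (𝔏 : CDiv (pullback sC sT)) (h : (pullback sC sT).functionField) :
    letI := algBox sC sT U T'
    h ∈ (ratioFam (isAffineOpen_box' sC sT hU hT') 𝔏).lam
        (overBase (hT'.primeIdealOf ⟨t, ht⟩).asIdeal Γ(pullback sC sT, box sC sT U T')) ↔
      ∀ y ∈ box sC sT U T', pullback.snd sC sT y ⤳ t →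
        h * ((𝔏.t y : ((pullback sC sT).functionField)ˣ) : (pullback sC sT).functionField) ∈
          Set.range (toFF (pullback sC sT) y) := by
  letI := algBox sC sT U T'
  set hW := isAffineOpen_box' sC sT hU hT' with hhW
  rw [RatioFam.mem_lam_iff]
  constructor
  · intro hh y hy hyt
    have e : hW.fromSpec (hW.primeIdealOf ⟨y, hy⟩) = y := hW.fromSpec_primeIdealOf ⟨y, hy⟩
    have hmem : hW.primeIdealOf ⟨y, hy⟩ ∈
        overBase (hT'.primeIdealOf ⟨t, ht⟩).asIdeal Γ(pullback sC sT, box sC sT U T') := by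
      rw [mem_overBase_iff_specializes sC sT hU hT' t ht, e]
      exact hyt
    have h1 := (mul_r_mem_locSub_iff hW 𝔏 h _).mp (hh _ hmem)
    rw [e] at h1
    exact h1
  · intro hh 𝔮 h𝔮
    exact (mul_r_mem_locSub_iff hW 𝔏 h 𝔮).mpr (hh _ (fromSpec_mem hW 𝔮)
      ((mem_overBase_iff_specializes sC sT hU hT' t ht 𝔮).mp h𝔮))

end Over

end Fermat.Agent.S26lib.SheafGlue
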