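/-
S26lib / SheafGlue / Lattice  (helper4)  --  Project K (S26), (LIFT) assembly, first half

The fields of helper3's `RelCurve.TwoChart` which do not involve the closed fibre, for ANY Cartier
divisor `𝔏` on `X = C ×_K T`, any point `t : T` and a chart pair `hC : Aff.ChartPair sC x` of the
curve (helper9), on helper3's common base `RelCurve/BaseAlg` (`stalkAlgebra`, `Lam`):
* `LamV 𝔏 t V := Lam π 𝔏 t (ρ ⁻¹' V)`, the sections over `V × Spec O_{T,t}`;
* `mulEquiv π t ξ`, multiplication by `ξ ∈ K(X)ˣ` as an `O_{T,t}`-linear automorphism of `K(X)`, and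
  `Xm := mulEquiv π t (ρ^* x)`;
* (1) `stable₁`, `stable₂`, `stable₁₂`;  (2) `exhaust₂`, `exhaust₁`;  (3) `exists_finset_gen₂`;
  (4) `flat_LamV`.
-/
import Fermat.Agent.S26lib.SheafGlue.ProdChart
import Fermat.Agent.S26lib.RelCurve.BaseAlg
import Fermat.Agent.S26lib.RelCurve.Lattice
import Fermat.Agent.S26lib.Aff.Chart

set_option autoImplicit false
set_option linter.unusedSectionVars false
set_option linter.style.haveILetI false

universe u

open AlgebraicGeometry CategoryTheory CategoryTheory.Limits TopologicalSpace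

namespace Fermat.Agent.S26lib.SheafGlue

open Fermat.Agent.S26lib.Quad Fermat.Agent.S26lib.Hub Fermat.Agent.S26lib.RelCurve
  Fermat.Agent.S26lib.P5a Fermat.Agent.S26lib.ProdAff

/-! ### multiplication by a rational function -/

section Mul

variable {X T : Scheme.{u}} [IsIntegral X] [IsIntegral T] (π : X ⟶ T) [IsDominant π] (t : T)

/-- multiplication by `ξ ∈ K(X)ˣ`, as an `O_{T,t}`-linear automorphism of `K(X)` -/
noncomputable def mulEquiv (ξ : (X.functionField)ˣ) :
    letI := stalkAlgebra π t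
    X.functionField ≃ₗ[T.presheaf.stalk t] X.functionField :=
  letI := stalkAlgebra π t
  { toFun := fun y => (ξ : X.functionField) * y
    invFun := fun y => ((ξ⁻¹ : (X.functionField)ˣ) : X.functionField) * y
    map_add' := fun y z => mul_add _ y z
    map_smul' := fun a y => mul_smul_comm a _ y
    left_inv := fun y => by
      show ((ξ⁻¹ : (X.functionField)ˣ) : X.functionField) * ((ξ : X.functionField) * y) = y
      rw [← mul_assoc, Units.inv_mul, one_mul]
    right_inv := fun y => by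
      show (ξ : X.functionField) * (((ξ⁻¹ : (X.functionField)ˣ) : X.functionField) * y) = y
      rw [← mul_assoc, Units.mul_inv, one_mul] }

@[simp] theorem mulEquiv_apply (ξ : (X.functionField)ˣ) (y : X.functionField) :
    mulEquiv π t ξ y = (ξ : X.functionField) * y := rfl

@[simp] theorem mulEquiv_symm_apply (ξ : (X.functionField)ˣ) (y : X.functionField) :
    letI := stalkAlgebra π t
    (mulEquiv π t ξ).symm y = ((ξ⁻¹ : (X.functionField)ˣ) : X.functionField) * y := rfl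

theorem mulEquiv_mul (ξ ξ' : (X.functionField)ˣ) :
    letI := stalkAlgebra π t
    mulEquiv π t (ξ * ξ') = mulEquiv π t ξ * mulEquiv π t ξ' := by
  letI := stalkAlgebra π t
  apply LinearEquiv.ext
  intro y
  show ((ξ * ξ' : (X.functionField)ˣ) : X.functionField) * y =
    (ξ : X.functionField) * ((ξ' : X.functionField) * y)
  rw [Units.val_mul, mul_assoc]

theorem mulEquiv_one :
    letI := stalkAlgebra π t
    mulEquiv π t (1 : (X.functionField)ˣ) = 1 := by
  letI := stalkAlgebra π t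
  apply LinearEquiv.ext
  intro y
  show ((1 : (X.functionField)ˣ) : X.functionField) * y = y
  rw [Units.val_one, one_mul]

/-- `mulEquiv` as a group homomorphism -/
noncomputable def mulEquivHom :
    letI := stalkAlgebra π t
    (X.functionField)ˣ →* (X.functionField ≃ₗ[T.presheaf.stalk t] X.functionField) :=
  letI := stalkAlgebra π t
  { toFun := mulEquiv π t
    map_one' := mulEquiv_one π t
    map_mul' := mulEquiv_mul π t }

theorem mulEquiv_zpow (ξ : (X.functionField)ˣ) (n : ℤ) :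
    letI := stalkAlgebra π t
    mulEquiv π t ξ ^ n = mulEquiv π t (ξ ^ n) := by
  letI := stalkAlgebra π t
  exact (map_zpow (mulEquivHom π t) ξ n).symm

theorem mulEquiv_zpow_apply (ξ : (X.functionField)ˣ) (n : ℤ) (y : X.functionField) :
    letI := stalkAlgebra π t
    (mulEquiv π t ξ ^ n) y = ((ξ ^ n : (X.functionField)ˣ) : X.functionField) * y := by
  letI := stalkAlgebra π t
  rw [mulEquiv_zpow]
  rfl

theorem mulEquiv_pow_apply (ξ : (X.functionField)ˣ) (n : ℕ) (y : X.functionField) :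
    letI := stalkAlgebra π t
    (mulEquiv π t ξ ^ n) y = (ξ : X.functionField) ^ n * y := by
  letI := stalkAlgebra π t
  have h := mulEquiv_zpow_apply π t ξ (n : ℤ) y
  rw [zpow_natCast, zpow_natCast, Units.val_pow_eq_pow_val] at h
  exact h

end Mul

/-! ### sections over `V × Spec O_{T,t}` -/

section LamV

variable {K : Type u} [Field K] {C T : Scheme.{u}}
  (sC : C ⟶ Spec (CommRingCat.of K)) (sT : T ⟶ Spec (CommRingCat.of K))
  [IsIntegral C] [IsIntegral T] [IsIntegral (pullback sC sT)]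
  [IsDominant (pullback.fst sC sT)] [IsDominant (pullback.snd sC sT)]

/-- the sections of `O(𝔏)` over `V × Spec O_{T,t}` -/
noncomputable abbrev LamV (𝔏 : CDiv (pullback sC sT)) (t : T) (V : C.Opens) :=
  Lam (pullback.snd sC sT) 𝔏 t ((pullback.fst sC sT) ⁻¹' (V : Set C))

theorem mem_LamV_iff (𝔏 : CDiv (pullback sC sT)) (t : T) (V : C.Opens)
    (h : (pullback sC sT).functionField) :
    h ∈ LamV sC sT 𝔏 t V ↔ ∀ y : ↥(pullback sC sT), pullback.fst sC sT y ∈ V →
      pullback.snd sC sT y ⤳ t →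
      h * ((𝔏.t y : ((pullback sC sT).functionField)ˣ) : (pullback sC sT).functionField) ∈
        regAt (pullback sC sT) y := Iff.rfl

theorem LamV_anti (𝔏 : CDiv (pullback sC sT)) (t : T) {V V' : C.Opens} (h : V ≤ V') :
    LamV sC sT 𝔏 t V' ≤ LamV sC sT 𝔏 t V :=
  Lam_anti _ 𝔏 t (Set.preimage_mono h)

theorem LamV_sup (𝔏 : CDiv (pullback sC sT)) (t : T) (V V' : C.Opens) :
    LamV sC sT 𝔏 t (V ⊔ V') = LamV sC sT 𝔏 t V ⊓ LamV sC sT 𝔏 t V' := by
  have : (pullback.fst sC sT) ⁻¹' ((V ⊔ V' : C.Opens) : Set C) =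
      (pullback.fst sC sT) ⁻¹' (V : Set C) ∪ (pullback.fst sC sT) ⁻¹' (V' : Set C) := by
    rw [Opens.coe_sup, Set.preimage_union]
  show Lam _ 𝔏 t _ = _
  rw [this, Lam_union]

/-- multiplication by a function which is regular over `V` preserves `LamV` -/
theorem mul_mem_LamV (𝔏 : CDiv (pullback sC sT)) (t : T) (V : C.Opens)
    {ξ : (pullback sC sT).functionField}
    (hξ : ∀ y : ↥(pullback sC sT), pullback.fst sC sT y ∈ V → ξ ∈ regAt (pullback sC sT) y)
    {h : (pullback sC sT).functionField} (hh : h ∈ LamV sC sT 𝔏 t V) :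
    ξ * h ∈ LamV sC sT 𝔏 t V := by
  intro y hy hyt
  rw [mul_assoc]
  exact Subring.mul_mem _ (hξ y hy) (hh y hy hyt)

/-- a section over `V` of the curve, pulled back, is regular over `V × T` -/
theorem ffMap_fst_germ_mem_regAt (V : C.Opens) (hη : genericPoint C ∈ V) (s : Γ(C, V))
    (y : ↥(pullback sC sT)) (hy : pullback.fst sC sT y ∈ V) :
    FinMap.ffMap (pullback.fst sC sT) (C.presheaf.germ V (genericPoint C) hη s) ∈
      regAt (pullback sC sT) y := by
  apply Quad.RatFam.ffMap_mem_regAt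
  refine ⟨C.presheaf.germ V (pullback.fst sC sT y) hy s, ?_⟩
  haveI : Nonempty V := ⟨⟨_, hη⟩⟩
  exact (algebraMap_eq_toFF_germ (Z := C) (W := V) (pullback.fst sC sT y) hy s).symm

end LamV

/-! ### one chart: `LamV` is helper3's `lamO` -/

section Chart

variable {K : Type u} [Field K] {C T : Scheme.{u}}
  (sC : C ⟶ Spec (CommRingCat.of K)) (sT : T ⟶ Spec (CommRingCat.of K))
  [IsIntegral C] [IsIntegral T] [IsIntegral (pullback sC sT)]
  [IsDominant (pullback.fst sC sT)] [IsDominant (pullback.snd sC sT)]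
  {U : C.Opens} (hU : IsAffineOpen U) [Nonempty U] {T' : T.Opens} (hT' : IsAffineOpen T')
  (t : T) (ht : t ∈ T')

include ht in
/-- the box over a nonempty open of `C` and a nonempty open of `T` contains the generic point -/
theorem nonempty_box_of_mem : Nonempty (box sC sT U T') := by
  haveI : Nonempty T' := ⟨⟨t, ht⟩⟩
  refine ⟨⟨genericPoint ↥(pullback sC sT), ?_, ?_⟩⟩
  · show pullback.fst sC sT (genericPoint ↥(pullback sC sT)) ∈ U
    rw [FinMap.map_genericPoint]
    exact genericPoint_mem U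
  · show pullback.snd sC sT (genericPoint ↥(pullback sC sT)) ∈ T'
    rw [FinMap.map_genericPoint]
    exact genericPoint_mem T'

variable [Nonempty (box sC sT U T')]
  [IsFractionRing Γ(pullback sC sT, box sC sT U T') (pullback sC sT).functionField]

/-- **`LamV` on an affine `U` is `lamO` of the chart `U × T'`** (any affine `T' ∋ t`) -/
theorem mem_LamV_iff_mem_lam_overBase (𝔏 : CDiv (pullback sC sT))
    (h : (pullback sC sT).functionField) :
    letI := algBox sC sT U T'
    h ∈ LamV sC sT 𝔏 t U ↔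
      h ∈ (ratioFam (isAffineOpen_box' sC sT hU hT') 𝔏).lam
        (overBase (hT'.primeIdealOf ⟨t, ht⟩).asIdeal Γ(pullback sC sT, box sC sT U T')) := by
  letI := algBox sC sT U T'
  rw [mem_lam_overBase_iff sC sT hU hT' t ht 𝔏 h, mem_LamV_iff]
  constructor
  · intro hh y hy hyt
    exact hh y hy.1 hyt
  · intro hh y hy hyt
    exact hh y ⟨hy, hyt.mem_open T'.isOpen ht⟩ hyt

end Chart

/-! ### (4) flatness -/

section Flat

variable {K : Type u} [Field K] {C T : Scheme.{u}}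
  (sC : C ⟶ Spec (CommRingCat.of K)) (sT : T ⟶ Spec (CommRingCat.of K))
  [IsIntegral C] [IsIntegral T] [IsIntegral (pullback sC sT)]
  [IsDominant (pullback.fst sC sT)] [IsDominant (pullback.snd sC sT)]
  {U : C.Opens} (hU : IsAffineOpen U) [Nonempty U]

/-- every point has an affine open neighbourhood -/
theorem exists_isAffineOpen_mem (t : T) : ∃ T' : T.Opens, IsAffineOpen T' ∧ t ∈ T' := by
  obtain ⟨_, ⟨T', hT', rfl⟩, ht, -⟩ :=
    T.isBasis_affineOpens.exists_subset_of_mem_open (Set.mem_univ t) isOpen_univ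
  exact ⟨T', hT', ht⟩

include hU in
/-- `LamV` on an affine open is `lamO`, as submodules -/
theorem LamV_eq_lamO {T' : T.Opens} (hT' : IsAffineOpen T') (t : T) (ht : t ∈ T')
    [Nonempty (box sC sT U T')]
    [IsFractionRing Γ(pullback sC sT, box sC sT U T') (pullback sC sT).functionField]
    (𝔏 : CDiv (pullback sC sT)) :
    letI := algBox sC sT U T'
    letI := algBoxFF sC sT U T'
    letI := stalkAlgebra (pullback.snd sC sT) t
    letI := TopCat.Presheaf.algebra_section_stalk T.presheaf ⟨t, ht⟩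
    haveI := isScalarTower_box sC sT U T'
    haveI := isScalarTower_stalk sC sT U T' t ht
    haveI := hT'.isLocalization_stalk ⟨t, ht⟩
    LamV sC sT 𝔏 t U =
      lamO (hT'.primeIdealOf ⟨t, ht⟩).asIdeal (T.presheaf.stalk t)
        (ratioFam (isAffineOpen_box' sC sT hU hT') 𝔏) := by
  letI := algBox sC sT U T'
  letI := algBoxFF sC sT U T'
  letI := stalkAlgebra (pullback.snd sC sT) t
  letI := TopCat.Presheaf.algebra_section_stalk T.presheaf ⟨t, ht⟩
  haveI := isScalarTower_box sC sT U T'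
  haveI := isScalarTower_stalk sC sT U T' t ht
  haveI := hT'.isLocalization_stalk ⟨t, ht⟩
  exact SetLike.ext fun h => mem_LamV_iff_mem_lam_overBase sC sT hU hT' t ht 𝔏 h

include hU in
/-- **(4)** the module of sections over `U × Spec O_{T,t}`, `U` affine, is flat over `O_{T,t}` -/
theorem flat_LamV (𝔏 : CDiv (pullback sC sT)) (t : T) :
    letI := stalkAlgebra (pullback.snd sC sT) t
    Module.Flat (T.presheaf.stalk t) (LamV sC sT 𝔏 t U) := by
  obtain ⟨T', hT', ht⟩ := exists_isAffineOpen_mem t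
  haveI := nonempty_box_of_mem sC sT (U := U) t ht
  haveI := isFractionRing (isAffineOpen_box' sC sT hU hT')
  letI := algBox sC sT U T'
  letI := algBoxFF sC sT U T'
  letI := stalkAlgebra (pullback.snd sC sT) t
  letI := TopCat.Presheaf.algebra_section_stalk T.presheaf ⟨t, ht⟩
  haveI := isScalarTower_box sC sT U T'
  haveI := isScalarTower_stalk sC sT U T' t ht
  haveI := hT'.isLocalization_stalk ⟨t, ht⟩
  haveI := flat_algBox sC sT hU hT'
  rw [LamV_eq_lamO sC sT hU hT' t ht 𝔏]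
  exact flat_lamO (hT'.primeIdealOf ⟨t, ht⟩).asIdeal (T.presheaf.stalk t)
    (ratioFam (isAffineOpen_box' sC sT hU hT') 𝔏)

end Flat

/-! ### (1) stability under the coordinate -/

section Stable

variable {K : Type u} [Field K] {C T : Scheme.{u}}
  (sC : C ⟶ Spec (CommRingCat.of K)) (sT : T ⟶ Spec (CommRingCat.of K))
  [IsIntegral C] [IsLocallyNoetherian C] [IsIntegral T] [IsIntegral (pullback sC sT)]
  [IsDominant (pullback.fst sC sT)] [IsDominant (pullback.snd sC sT)]
  (x : (C.functionField)ˣ) (hC : Aff.ChartPair sC (x : C.functionField))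
  (𝔏 : CDiv (pullback sC sT)) (t : T)

/-- the coordinate of the curve, as a unit of `K(X)` -/
noncomputable def xi : ((pullback sC sT).functionField)ˣ :=
  Units.map (FinMap.ffMap (pullback.fst sC sT) :
    C.functionField →* (pullback sC sT).functionField) x

@[simp] theorem coe_xi : ((xi sC sT x : ((pullback sC sT).functionField)ˣ) :
    (pullback sC sT).functionField) = FinMap.ffMap (pullback.fst sC sT) (x : C.functionField) :=
  rfl

theorem coe_xi_inv : (((xi sC sT x)⁻¹ : ((pullback sC sT).functionField)ˣ) :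
    (pullback sC sT).functionField) =
      FinMap.ffMap (pullback.fst sC sT) ((x : C.functionField)⁻¹) := by
  rw [Units.val_inv_eq_inv_val, coe_xi, map_inv₀]

/-- **the automorphism `Xm`**: multiplication by the coordinate `ρ^* x` -/
noncomputable abbrev Xm :=
  mulEquiv (pullback.snd sC sT) t (xi sC sT x)

include hC in
theorem xi_mem_regAt (y : ↥(pullback sC sT)) (hy : pullback.fst sC sT y ∈ hC.U₁) :
    ((xi sC sT x : ((pullback sC sT).functionField)ˣ) : (pullback sC sT).functionField) ∈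
      regAt (pullback sC sT) y := by
  rw [coe_xi, ← hC.germ_x₁]
  exact ffMap_fst_germ_mem_regAt sC sT hC.U₁ hC.generic_mem₁ hC.x₁ y hy

include hC in
theorem xi_inv_mem_regAt (y : ↥(pullback sC sT)) (hy : pullback.fst sC sT y ∈ hC.U₂) :
    (((xi sC sT x)⁻¹ : ((pullback sC sT).functionField)ˣ) : (pullback sC sT).functionField) ∈
      regAt (pullback sC sT) y := by
  rw [coe_xi_inv, ← hC.germ_x₂]
  exact ffMap_fst_germ_mem_regAt sC sT hC.U₂ hC.generic_mem₂ hC.x₂ y hy

/-- **(1) `stable₁`** -/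
theorem stable₁ (y : (pullback sC sT).functionField) (hy : y ∈ LamV sC sT 𝔏 t hC.U₁) :
    Xm sC sT x t y ∈ LamV sC sT 𝔏 t hC.U₁ :=
  mul_mem_LamV sC sT 𝔏 t hC.U₁ (xi_mem_regAt sC sT x hC) hy

/-- **(1) `stable₂`** -/
theorem stable₂ (y : (pullback sC sT).functionField) (hy : y ∈ LamV sC sT 𝔏 t hC.U₂) :
    letI := stalkAlgebra (pullback.snd sC sT) t
    (Xm sC sT x t).symm y ∈ LamV sC sT 𝔏 t hC.U₂ :=
  mul_mem_LamV sC sT 𝔏 t hC.U₂ (xi_inv_mem_regAt sC sT x hC) hy

/-- **(1) `stable₁₂`** -/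
theorem stable₁₂ (y : (pullback sC sT).functionField)
    (hy : y ∈ LamV sC sT 𝔏 t (hC.U₁ ⊓ hC.U₂)) :
    Xm sC sT x t y ∈ LamV sC sT 𝔏 t (hC.U₁ ⊓ hC.U₂) :=
  mul_mem_LamV sC sT 𝔏 t (hC.U₁ ⊓ hC.U₂)
    (fun z hz => xi_mem_regAt sC sT x hC z hz.1) hy

/-- also the inverse is stable on the intersection -/
theorem stable₁₂_symm (y : (pullback sC sT).functionField)
    (hy : y ∈ LamV sC sT 𝔏 t (hC.U₁ ⊓ hC.U₂)) :
    letI := stalkAlgebra (pullback.snd sC sT) t
    (Xm sC sT x t).symm y ∈ LamV sC sT 𝔏 t (hC.U₁ ⊓ hC.U₂) :=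
  mul_mem_LamV sC sT 𝔏 t (hC.U₁ ⊓ hC.U₂)
    (fun z hz => xi_inv_mem_regAt sC sT x hC z hz.2) hy

end Stable

/-! ### (2), (3): exhaustion and finite generation -/

section Exhaust

variable {K : Type u} [Field K] {C T : Scheme.{u}}
  (sC : C ⟶ Spec (CommRingCat.of K)) (sT : T ⟶ Spec (CommRingCat.of K))
  [IsIntegral C] [IsLocallyNoetherian C] [IsIntegral T] [IsIntegral (pullback sC sT)]
  [IsDominant (pullback.fst sC sT)] [IsDominant (pullback.snd sC sT)]

/-- `π₁^*` of a section of the curve, as a rational function on `X` -/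
theorem algebraMap_pr₁ (V : C.Opens) (T' : T.Opens) [Nonempty V] [Nonempty (box sC sT V T')]
    (s : Γ(C, V)) :
    algebraMap Γ(pullback sC sT, box sC sT V T') (pullback sC sT).functionField
        (pr₁ sC sT V T' s) =
      FinMap.ffMap (pullback.fst sC sT)
        (C.presheaf.germ V (genericPoint C) (genericPoint_mem V) s) := by
  obtain ⟨⟨z, hz⟩⟩ := (inferInstance : Nonempty (box sC sT V T'))
  haveI : Nonempty ((pullback.fst sC sT) ⁻¹ᵁ V) := ⟨⟨z, box_le_fst sC sT V T' hz⟩⟩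
  have h0 : C.presheaf.germ V (genericPoint C) (genericPoint_mem V) s =
      C.germToFunctionField V s := rfl
  rw [h0, FinMap.ffMap_germ]
  have hηX : genericPoint ↥(pullback sC sT) ∈ box sC sT V T' := genericPoint_mem _
  exact TopCat.Presheaf.germ_res_apply (pullback sC sT).presheaf
    (homOfLE (box_le_fst sC sT V T')) (genericPoint ↥(pullback sC sT)) hηX
    ((pullback.fst sC sT).app V s)

variable (x : (C.functionField)ˣ) (hC : Aff.ChartPair sC (x : C.functionField))
  (𝔏 : CDiv (pullback sC sT)) (t : T)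

/-- a section over `D(s) × Spec O_{T,t}`, `D(s) ⊆ U` affine, becomes a section over
`U × Spec O_{T,t}` after multiplication by a power of `ρ^* s` -/
theorem exists_pow_mul_mem_LamV {U : C.Opens} (hU : IsAffineOpen U) [Nonempty U] (s : Γ(C, U))
    (y : (pullback sC sT).functionField) (hy : y ∈ LamV sC sT 𝔏 t (C.basicOpen s)) :
    ∃ n : ℕ, FinMap.ffMap (pullback.fst sC sT)
        (C.presheaf.germ U (genericPoint C) (genericPoint_mem U) s) ^ n * y ∈
      LamV sC sT 𝔏 t U := by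
  obtain ⟨T', hT', ht⟩ := exists_isAffineOpen_mem t
  haveI := nonempty_box_of_mem sC sT (U := U) t ht
  haveI := isFractionRing (isAffineOpen_box' sC sT hU hT')
  letI := algBox sC sT U T'
  letI := algBoxFF sC sT U T'
  letI := stalkAlgebra (pullback.snd sC sT) t
  letI := TopCat.Presheaf.algebra_section_stalk T.presheaf ⟨t, ht⟩
  haveI := isScalarTower_box sC sT U T'
  haveI := isScalarTower_stalk sC sT U T' t ht
  haveI := hT'.isLocalization_stalk ⟨t, ht⟩
  set hW := isAffineOpen_box' sC sT hU hT' with hhW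
  obtain ⟨n, hn⟩ := exists_pow_mul_mem_lamO (hT'.primeIdealOf ⟨t, ht⟩).asIdeal
    (T.presheaf.stalk t) (ratioFam hW 𝔏) (pr₁ sC sT U T' s) (h := y) (fun 𝔮 h𝔮 hf => by
      rw [mul_r_mem_locSub_iff]
      have hz : hW.fromSpec 𝔮 ∈ box sC sT (C.basicOpen s) T' := by
        rw [box_basicOpen]
        exact (fromSpec_mem_basicOpen_iff hW _ 𝔮).mpr hf
      exact hy _ hz.1 ((mem_overBase_iff_specializes sC sT hU hT' t ht 𝔮).mp h𝔮))
  refine ⟨n, ?_⟩
  rw [LamV_eq_lamO sC sT hU hT' t ht 𝔏, ← algebraMap_pr₁ sC sT U T' s]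
  exact hn

/-- **(2) `exhaust`**: `y ∈ Λ₁₂ → ∃ n, Xm^(-n) y ∈ Λ₂` -/
theorem exhaust₂ (y : (pullback sC sT).functionField)
    (hy : y ∈ LamV sC sT 𝔏 t (hC.U₁ ⊓ hC.U₂)) :
    letI := stalkAlgebra (pullback.snd sC sT) t
    ∃ n : ℕ, (Xm sC sT x t ^ (-(n : ℤ))) y ∈ LamV sC sT 𝔏 t hC.U₂ := by
  letI := stalkAlgebra (pullback.snd sC sT) t
  haveI : Nonempty hC.U₂ := ⟨⟨_, hC.generic_mem₂⟩⟩
  rw [hC.inf_eq₂] at hy
  obtain ⟨n, hn⟩ := exists_pow_mul_mem_LamV sC sT 𝔏 t hC.isAffineOpen₂ hC.x₂ y hy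
  refine ⟨n, ?_⟩
  rw [mulEquiv_zpow_apply, ← inv_zpow', zpow_natCast, Units.val_pow_eq_pow_val, coe_xi_inv]
  have e := hC.germ_x₂
  rw [e] at hn
  exact hn

/-- **(2') for `S₂_pow`**: `y ∈ Λ₁₂ → ∃ k, Xm^k y ∈ Λ₁` -/
theorem exhaust₁ (y : (pullback sC sT).functionField)
    (hy : y ∈ LamV sC sT 𝔏 t (hC.U₁ ⊓ hC.U₂)) :
    letI := stalkAlgebra (pullback.snd sC sT) t
    ∃ k : ℕ, (Xm sC sT x t ^ k) y ∈ LamV sC sT 𝔏 t hC.U₁ := by
  letI := stalkAlgebra (pullback.snd sC sT) t
  haveI : Nonempty hC.U₁ := ⟨⟨_, hC.generic_mem₁⟩⟩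
  rw [hC.inf_eq₁] at hy
  obtain ⟨n, hn⟩ := exists_pow_mul_mem_LamV sC sT 𝔏 t hC.isAffineOpen₁ hC.x₁ y hy
  refine ⟨n, ?_⟩
  rw [mulEquiv_pow_apply, coe_xi]
  have e := hC.germ_x₁
  rw [e] at hn
  exact hn

/-- finite generation of the sections over `U × Spec O_{T,t}` over `O_{T,t}[ρ^* s]`, when `Γ(C,U)`
is module-finite over `K[s]` -/
theorem exists_finset_LamV_le {U : C.Opens} (hU : IsAffineOpen U) [Nonempty U] (s : Γ(C, U))
    (hfin : (Polynomial.eval₂RingHom (constHomOpen sC U).hom s).Finite) :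
    letI := stalkAlgebra (pullback.snd sC sT) t
    ∃ S : Finset (pullback sC sT).functionField, (∀ e ∈ S, e ∈ LamV sC sT 𝔏 t U) ∧
      ∀ h ∈ LamV sC sT 𝔏 t U, h ∈ Submodule.span (T.presheaf.stalk t)
        {z : (pullback sC sT).functionField | ∃ e ∈ S, ∃ j : ℕ,
          z = FinMap.ffMap (pullback.fst sC sT)
            (C.presheaf.germ U (genericPoint C) (genericPoint_mem U) s) ^ j * e} := by
  obtain ⟨T', hT', ht⟩ := exists_isAffineOpen_mem t
  haveI := nonempty_box_of_mem sC sT (U := U) t ht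
  haveI := isFractionRing (isAffineOpen_box' sC sT hU hT')
  letI := algBox sC sT U T'
  letI := algBoxFF sC sT U T'
  letI := stalkAlgebra (pullback.snd sC sT) t
  letI := TopCat.Presheaf.algebra_section_stalk T.presheaf ⟨t, ht⟩
  haveI := isScalarTower_box sC sT U T'
  haveI := isScalarTower_stalk sC sT U T' t ht
  haveI := hT'.isLocalization_stalk ⟨t, ht⟩
  set hW := isAffineOpen_box' sC sT hU hT' with hhW
  obtain ⟨S, hS, hgen⟩ := exists_finset_lamO_le (hT'.primeIdealOf ⟨t, ht⟩).asIdeal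
    (T.presheaf.stalk t) (ratioFam hW 𝔏) (pr₁ sC sT U T' s)
    (finite_algBox sC sT hU hT' s hfin)
  refine ⟨S, fun e he => ?_, fun h hh => ?_⟩
  · rw [LamV_eq_lamO sC sT hU hT' t ht 𝔏]
    exact lam_univ_le_lamO _ _ _ (hS e he)
  · rw [LamV_eq_lamO sC sT hU hT' t ht 𝔏] at hh
    have := hgen h hh
    rw [algebraMap_pr₁ sC sT U T' s] at this
    exact this

/-- **(3) `gen₂`**: a finite set `S₂ ⊆ Λ₂` with `Λ₂ ≤ ⨆ j, Xm^(-j) (span S₂)` -/
theorem exists_finset_gen₂ :
    letI := stalkAlgebra (pullback.snd sC sT) t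
    ∃ S₂ : Finset (pullback sC sT).functionField, (∀ e ∈ S₂, e ∈ LamV sC sT 𝔏 t hC.U₂) ∧
      LamV sC sT 𝔏 t hC.U₂ ≤
        ⨆ j : ℕ, shiftSpan (Xm sC sT x t) (S₂ : Set (pullback sC sT).functionField)
          (-(j : ℤ)) := by
  letI := stalkAlgebra (pullback.snd sC sT) t
  haveI : Nonempty hC.U₂ := ⟨⟨_, hC.generic_mem₂⟩⟩
  obtain ⟨S, hS, hgen⟩ := exists_finset_LamV_le sC sT 𝔏 t hC.isAffineOpen₂ hC.x₂ hC.finite₂
  refine ⟨S, hS, fun h hh => ?_⟩
  have h1 := hgen h hh
  have e := hC.germ_x₂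
  rw [e] at h1
  refine (Submodule.span_le.mpr ?_) h1
  rintro _ ⟨e, he, j, rfl⟩
  refine Submodule.mem_iSup_of_mem j ?_
  refine ⟨e, Submodule.subset_span he, ?_⟩
  show (Xm sC sT x t ^ (-(j : ℤ))) e = _
  rw [mulEquiv_zpow_apply, ← inv_zpow', zpow_natCast, Units.val_pow_eq_pow_val, coe_xi_inv]

/-- `le₁` -/
theorem LamV_le₁ : LamV sC sT 𝔏 t hC.U₁ ≤ LamV sC sT 𝔏 t (hC.U₁ ⊓ hC.U₂) :=
  LamV_anti sC sT 𝔏 t inf_le_left

/-- `le₂` -/
theorem LamV_le₂ : LamV sC sT 𝔏 t hC.U₂ ≤ LamV sC sT 𝔏 t (hC.U₁ ⊓ hC.U₂) :=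
  LamV_anti sC sT 𝔏 t inf_le_right

/-- the global sections over `C × Spec O_{T,t}` are `Λ₁ ⊓ Λ₂` -/
theorem Lam_univ_eq_inf :
    Lam (pullback.snd sC sT) 𝔏 t Set.univ = LamV sC sT 𝔏 t hC.U₁ ⊓ LamV sC sT 𝔏 t hC.U₂ := by
  rw [← LamV_sup, hC.sup_eq]
  show _ = Lam _ 𝔏 t _
  congr 1

/-- **`S₂_pow`** for any finite set of sections over `U₂` -/
theorem exists_pow_mem_of_mem_LamV₂ (e : (pullback sC sT).functionField)
    (he : e ∈ LamV sC sT 𝔏 t hC.U₂) :
    letI := stalkAlgebra (pullback.snd sC sT) t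
    ∃ k : ℕ, (Xm sC sT x t ^ k) e ∈ LamV sC sT 𝔏 t hC.U₁ :=
  exhaust₁ sC sT x hC 𝔏 t e (LamV_le₂ sC sT x hC 𝔏 t he)

end Exhaust

end Fermat.Agent.S26lib.SheafGlue
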