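/-
S26lib / SheafGlue / Targets  (helper4)  --  Project K (S26), (LIFT) assembly: (LAT) and (GEN1)

Proofs of two leaves of helper3's `RelCurve/Targets`:
* `latStatement : RelCurve.LatStatement sC sT 𝔏 t hC`  (the lattice fields of `TwoChart`),
* `gen1Statement : RelCurve.Gen1Statement sC sT 𝔏 t hC`  (finite generation over `U₁`),
for every Cartier divisor `𝔏` on `C ×_K T`, every `t : KPt sT` and every chart pair `hC`,
from `SheafGlue/Lattice`.  The automorphism is `Xm = ` multiplication by `ρ^* x`.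
-/
import Fermat.Agent.S26lib.SheafGlue.Lattice
import Fermat.Agent.S26lib.RelCurve.Targets

set_option autoImplicit false
set_option linter.unusedSectionVars false
set_option linter.style.haveILetI false

noncomputable section

namespace Fermat.Agent.S26lib.SheafGlue

open AlgebraicGeometry CategoryTheory CategoryTheory.Limits TopologicalSpace
  Fermat.Agent.S26lib.Quad Fermat.Agent.S26lib.Hub Fermat.Agent.S26lib.Prod
  Fermat.Agent.S26lib.Weil Fermat.Agent.S26lib.Aff

universe u

variable {K : Type u} [Field K] {C T : Scheme.{u}}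
  (sC : C ⟶ Spec (CommRingCat.of K)) (sT : T ⟶ Spec (CommRingCat.of K))
  [IsIntegral C] [IsIntegral T] [IsIntegral (pullback sC sT)] [IsLocallyNoetherian C]

attribute [local instance] Quad.surjective_toSpecField

/-- the coordinate of a chart pair is not zero -/
theorem chartPair_ne_zero {x : C.functionField} (hC : ChartPair sC x) : x ≠ 0 := by
  intro h0
  have hη : genericPoint C ∈ hC.U₁ ⊓ hC.U₂ := ⟨hC.generic_mem₁, hC.generic_mem₂⟩
  have h1 := congrArg (C.presheaf.germ (hC.U₁ ⊓ hC.U₂) (genericPoint C) hη) hC.mul_eq_one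
  rw [map_mul, map_one,
    C.presheaf.germ_res_apply (homOfLE inf_le_left) (genericPoint C) hη hC.x₁,
    C.presheaf.germ_res_apply (homOfLE inf_le_right) (genericPoint C) hη hC.x₂,
    hC.germ_x₁, hC.germ_x₂, h0, zero_mul] at h1
  exact zero_ne_one h1

/-- the intersection of the two charts is affine -/
theorem isAffineOpen_inf {x : C.functionField} (hC : ChartPair sC x) :
    IsAffineOpen (hC.U₁ ⊓ hC.U₂) := by
  rw [hC.inf_eq₁]
  exact hC.isAffineOpen₁.basicOpen hC.x₁

/-- **(LAT)**, for a unit coordinate -/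
theorem latStatement_units (𝔏 : CDiv (pullback sC sT)) (t : KPt sT) (x : (C.functionField)ˣ)
    (hC : ChartPair sC (x : C.functionField)) : RelCurve.LatStatement sC sT 𝔏 t hC := by
  letI := RelCurve.stalkAlgebra (pullback.snd sC sT) t.pt
  obtain ⟨S₂, hS₂, hgen⟩ := exists_finset_gen₂ sC sT x hC 𝔏 t.pt
  haveI hne : Nonempty (hC.U₁ ⊓ hC.U₂ : C.Opens) :=
    ⟨⟨genericPoint C, hC.generic_mem₁, hC.generic_mem₂⟩⟩
  refine ⟨Xm sC sT x t.pt, S₂, ?_, ?_, ?_, ?_, ?_, ?_, ?_, ?_⟩
  · exact fun y hy => stable₁ sC sT x hC 𝔏 t.pt y hy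
  · exact fun y hy => stable₂ sC sT x hC 𝔏 t.pt y hy
  · exact fun y hy => stable₁₂ sC sT x hC 𝔏 t.pt y hy
  · exact hS₂
  · exact hgen
  · exact fun y hy => exhaust₂ sC sT x hC 𝔏 t.pt y hy
  · exact fun e he => exists_pow_mem_of_mem_LamV₂ sC sT x hC 𝔏 t.pt e (hS₂ e he)
  · exact flat_LamV sC sT (isAffineOpen_inf sC hC) 𝔏 t.pt

/-- **(LAT)**: the lattice fields of `TwoChart` for the charts `U₁ × Spec 𝒪`, `U₂ × Spec 𝒪` -/
theorem latStatement (𝔏 : CDiv (pullback sC sT)) (t : KPt sT) {x : C.functionField}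
    (hC : ChartPair sC x) : RelCurve.LatStatement sC sT 𝔏 t hC :=
  latStatement_units sC sT 𝔏 t (Units.mk0 x (chartPair_ne_zero sC hC)) hC

/-- **(GEN1)**: the sections over `U₁ × Spec 𝒪` are generated over `𝒪[x]` by finitely many -/
theorem gen1Statement (𝔏 : CDiv (pullback sC sT)) (t : KPt sT) {x : C.functionField}
    (hC : ChartPair sC x) : RelCurve.Gen1Statement sC sT 𝔏 t hC := by
  letI := RelCurve.stalkAlgebra (pullback.snd sC sT) t.pt
  haveI : Nonempty hC.U₁ := ⟨⟨_, hC.generic_mem₁⟩⟩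
  obtain ⟨S, hS, hgen⟩ := exists_finset_LamV_le sC sT 𝔏 t.pt hC.isAffineOpen₁ hC.x₁ hC.finite₁
  refine ⟨S, hS, fun y hy => ?_⟩
  have h1 := hgen y hy
  have e := hC.germ_x₁
  rw [e] at h1
  exact h1

end Fermat.Agent.S26lib.SheafGlue
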